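import Fermat.Agent.S41.H945.HeisLift
import Fermat.Agent.S41.H768.Tors

/-!
# S41 / block PD / leaf HEIS — `heisLift : Spec.HeisLiftStatement` (unconditional)

`heisLift_of` (this directory) applied to leaf TORS (`Fermat.Agent.S41.H768.torsionClass`, on main).
-/

set_option autoImplicit false

namespace Fermat.Agent.S41.H945

universe u

/-- **Leaf HEIS** of `Spec/PD.lean`, unconditional. -/
theorem heisLift : Fermat.Agent.S41.Spec.HeisLiftStatement.{u} :=
  heisLift_of Fermat.Agent.S41.H768.torsionClass

end Fermat.Agent.S41.H945
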