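import Mathlib
import Fermat.Agent.S21.H585.Cocycle

/-!
# S41 / block PD / leaf HEIS — part 1: the Heisenberg group and twisted cocycles on `SL(2, ℤ)`

* `Heis R` : the Heisenberg group `R³`, `(a, b, c) * (a', b', c') = (a + a', b + b', c + c' + a * b')`.
* `exists_twisted_cocycle` : if `-1` acts trivially on `X`, `H` is any group and `cS cU : X → H` satisfy
  `cS (S x) * cS x = 1`, `cU (U² x) * cU (U x) * cU x = 1` (`U = S * T`), then there is
  `C : SL(2, ℤ) → X → H` with `C (g * h) x = C g (h • x) * C h x`, `C S = cS`, `C U = cU`.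
  (Non-abelian version of `Fermat.Agent.S21.H585.exists_cocycle`; same proof.)
-/

set_option autoImplicit false

namespace Fermat.Agent.S41.H945

open Matrix ModularGroup Fermat.Agent.S21.H585
open scoped MatrixGroups

/-- The Heisenberg group over `R`. -/
@[ext] structure Heis (R : Type*) where
  /-- first coordinate -/
  a : R
  /-- second coordinate -/
  b : R
  /-- central coordinate -/
  c : R

namespace Heis

variable {R : Type*} [CommRing R]

instance : Mul (Heis R) := ⟨fun p q => ⟨p.a + q.a, p.b + q.b, p.c + q.c + p.a * q.b⟩⟩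
instance : One (Heis R) := ⟨⟨0, 0, 0⟩⟩
instance : Inv (Heis R) := ⟨fun p => ⟨-p.a, -p.b, -p.c + p.a * p.b⟩⟩

@[simp] lemma mul_a (p q : Heis R) : (p * q).a = p.a + q.a := rfl
@[simp] lemma mul_b (p q : Heis R) : (p * q).b = p.b + q.b := rfl
@[simp] lemma mul_c (p q : Heis R) : (p * q).c = p.c + q.c + p.a * q.b := rfl
@[simp] lemma one_a : (1 : Heis R).a = 0 := rfl
@[simp] lemma one_b : (1 : Heis R).b = 0 := rfl
@[simp] lemma one_c : (1 : Heis R).c = 0 := rfl
@[simp] lemma inv_a (p : Heis R) : (p⁻¹).a = -p.a := rfl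
@[simp] lemma inv_b (p : Heis R) : (p⁻¹).b = -p.b := rfl
@[simp] lemma inv_c (p : Heis R) : (p⁻¹).c = -p.c + p.a * p.b := rfl

instance : Group (Heis R) where
  mul_assoc p q r := by ext <;> simp <;> ring
  one_mul p := by ext <;> simp
  mul_one p := by ext <;> simp
  inv_mul_cancel p := by ext <;> simp

end Heis

section Twisted

variable {G : Type*} [Group G] {X : Type*} [MulAction G X] {H : Type*} [Group H]

/-- The permutation `(x, t) ↦ (g • x, c x * t)` of `X × H`. -/
def twPerm (g : G) (c : X → H) : Equiv.Perm (X × H) where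
  toFun z := (g • z.1, c z.1 * z.2)
  invFun z := (g⁻¹ • z.1, (c (g⁻¹ • z.1))⁻¹ * z.2)
  left_inv z := by
    rcases z with ⟨x, t⟩
    simp
  right_inv z := by
    rcases z with ⟨x, t⟩
    simp

@[simp] lemma twPerm_apply (g : G) (c : X → H) (x : X) (t : H) :
    twPerm g c (x, t) = (g • x, c x * t) := rfl

/-- Twisted (non-abelian) cocycles. -/
def IsTwCocycle (C : G → X → H) : Prop := ∀ g h x, C (g * h) x = C g (h • x) * C h x

lemma IsTwCocycle.map_one {C : G → X → H} (hC : IsTwCocycle C) (x : X) : C 1 x = 1 := by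
  have := hC 1 1 x
  rw [one_mul, one_smul] at this
  exact (mul_eq_left.mp this.symm)

lemma IsTwCocycle.map_inv_mul {C : G → X → H} (hC : IsTwCocycle C) (g : G) (x : X) :
    C g⁻¹ (g • x) * C g x = 1 := by
  have := hC g⁻¹ g x
  rw [inv_mul_cancel, hC.map_one] at this
  exact this.symm

end Twisted

/-- **Existence of twisted cocycles on `SL(2, ℤ)`** with prescribed values on `S` and `S * T`. -/
theorem exists_twisted_cocycle {X : Type*} [MulAction SL(2, ℤ) X] {H : Type*} [Group H]
    (hneg : ∀ x : X, (-1 : SL(2, ℤ)) • x = x) (cS cU : X → H)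
    (hS : ∀ x, cS (S • x) * cS x = 1)
    (hU : ∀ x, cU ((S * T) • (S * T) • x) * cU ((S * T) • x) * cU x = 1) :
    ∃ C : SL(2, ℤ) → X → H, IsTwCocycle C ∧ C S = cS ∧ C (S * T) = cU := by
  have hs : (twPerm S cS : Equiv.Perm (X × H)) ^ 2 = 1 := by
    ext ⟨x, t⟩ : 1
    rw [pow_two, Equiv.Perm.mul_apply, twPerm_apply, twPerm_apply, Equiv.Perm.one_apply,
      ← mul_smul, S_mul_S_eq_neg_one, hneg, ← mul_assoc, hS, one_mul]
  have hu : (twPerm (S * T) cU : Equiv.Perm (X × H)) ^ 3 = 1 := by
    ext ⟨x, t⟩ : 1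
    rw [pow_succ, pow_two, Equiv.Perm.mul_apply, Equiv.Perm.mul_apply, twPerm_apply,
      twPerm_apply, twPerm_apply, Equiv.Perm.one_apply]
    have h1 : (S * T) • (S * T) • (S * T) • x = x := by
      rw [smul_smul, smul_smul, ST_cube_eq_neg_one, hneg]
    rw [h1, ← mul_assoc, ← mul_assoc, hU, one_mul]
  obtain ⟨Φ, hΦS, hΦU⟩ := exists_hom_of_sq_cube _ _ hs hu
  -- every `Φ g` is twisted-affine over `g`
  have hP : ∀ g : SL(2, ℤ), ∃ m : X → H, ∀ x t, Φ g (x, t) = (g • x, m x * t) := by
    intro g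
    have hg : g ∈ Subgroup.closure ({S, S * T} : Set SL(2, ℤ)) := by
      have hle : Subgroup.closure ({S, T} : Set SL(2, ℤ)) ≤
          Subgroup.closure ({S, S * T} : Set SL(2, ℤ)) := by
        rw [Subgroup.closure_le]
        rintro x (rfl | rfl)
        · exact Subgroup.subset_closure (by simp)
        · have h1 : S ∈ Subgroup.closure ({S, S * T} : Set SL(2, ℤ)) :=
            Subgroup.subset_closure (by simp)
          have h2 : S * T ∈ Subgroup.closure ({S, S * T} : Set SL(2, ℤ)) :=
            Subgroup.subset_closure (by simp)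
          have h3 := mul_mem (inv_mem h1) h2
          rwa [inv_mul_cancel_left] at h3
      apply hle
      rw [_root_.SpecialLinearGroup.SL2Z_generators]; trivial
    induction hg using Subgroup.closure_induction with
    | mem x hx =>
      rcases hx with rfl | rfl
      · exact ⟨cS, fun x t => by rw [hΦS, twPerm_apply]⟩
      · exact ⟨cU, fun x t => by rw [hΦU, twPerm_apply]⟩
    | one => exact ⟨fun _ => 1, fun x t => by simp⟩
    | mul g h _ _ hg hh =>
      obtain ⟨m, hm⟩ := hg
      obtain ⟨n, hn⟩ := hh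
      refine ⟨fun x => m (h • x) * n x, fun x t => ?_⟩
      rw [map_mul, Equiv.Perm.mul_apply, hn, hm, mul_smul, mul_assoc]
    | inv g _ hg =>
      obtain ⟨m, hm⟩ := hg
      refine ⟨fun x => (m (g⁻¹ • x))⁻¹, fun x t => ?_⟩
      rw [map_inv, Equiv.Perm.inv_eq_iff_eq, hm, smul_inv_smul]
      simp
  choose m hm using hP
  refine ⟨m, ?_, ?_, ?_⟩
  · intro g h x
    have h1 := hm (g * h) x 1
    rw [map_mul, Equiv.Perm.mul_apply, hm h, hm g, mul_one, mul_one] at h1
    exact (congrArg Prod.snd h1).symm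
  · funext x
    have h1 := hm S x 1
    rw [hΦS, twPerm_apply] at h1
    simpa using (congrArg Prod.snd h1).symm
  · funext x
    have h1 := hm (S * T) x 1
    rw [hΦU, twPerm_apply] at h1
    simpa using (congrArg Prod.snd h1).symm

end Fermat.Agent.S41.H945
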