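import Mathlib
import Fermat.Agent.S41.Spec.PD
import Fermat.Agent.S41.H945.HeisGroup
import Fermat.Agent.S21.H585.LowerBound

/-!
# S41 / block PD / leaf HEIS — `Spec.HeisLiftStatement` (helper945, 2nd owner)

For `Γ ≤ SL(2, ℤ)` of finite index with `-1 ∈ Γ`, Manin representatives `m, m'` of `φ, ψ` and
parabolic data `e, e'`, we construct a Heisenberg lift `ζ` of `(φ, ψ)` (trivial on torsion) such that
`∑ ζ (γ i) = - maninForm Γ m e'` over every `T`-orbit system.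

Construction: the twisted cocycle `C : SL(2, ℤ) → X → Heis R` with `C S = 1`,
`C U x = (m (U x) - m x, m' (U x) - m' x, m (U x) * (m' (U x) - m' x))`, `U = S * T`;
`ζ γ` is the central coordinate of `C γ x₀`.

The only input which is not proved here is `Spec.TorsionClassStatement` (leaf TORS), taken as a
hypothesis.
-/

set_option autoImplicit false

namespace Fermat.Agent.S41.H945

open Matrix ModularGroup Fermat.Agent.S41.Spec Fermat.Agent.S21.H585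
open scoped MatrixGroups

/-! ## Abelian cocycles are determined by their values on `S` and `S * T` -/

section Uniq

variable {X : Type*} [MulAction SL(2, ℤ) X] {A : Type*} [AddCommGroup A]

lemma mem_closure_S_ST (g : SL(2, ℤ)) : g ∈ Subgroup.closure ({S, S * T} : Set SL(2, ℤ)) := by
  have hle : Subgroup.closure ({S, T} : Set SL(2, ℤ)) ≤
      Subgroup.closure ({S, S * T} : Set SL(2, ℤ)) := by
    rw [Subgroup.closure_le]
    rintro x (rfl | rfl)
    · exact Subgroup.subset_closure (by simp)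
    · have h1 : S ∈ Subgroup.closure ({S, S * T} : Set SL(2, ℤ)) :=
        Subgroup.subset_closure (by simp)
      have h2 : S * T ∈ Subgroup.closure ({S, S * T} : Set SL(2, ℤ)) :=
        Subgroup.subset_closure (by simp)
      have h3 := mul_mem (inv_mem h1) h2
      rwa [inv_mul_cancel_left] at h3
  apply hle
  rw [_root_.SpecialLinearGroup.SL2Z_generators]; trivial

lemma cocycle_eq_of_S_ST {f f' : SL(2, ℤ) → X → A} (hf : IsCocycle f) (hf' : IsCocycle f')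
    (hS : f S = f' S) (hU : f (S * T) = f' (S * T)) (g : SL(2, ℤ)) (x : X) : f g x = f' g x := by
  have hg := mem_closure_S_ST g
  induction hg using Subgroup.closure_induction generalizing x with
  | mem y hy =>
    rcases hy with rfl | rfl
    · rw [hS]
    · rw [hU]
  | one => rw [hf.map_one, hf'.map_one]
  | mul g h _ _ hg hh => rw [hf, hf', hg, hh]
  | inv g _ hg => rw [hf.map_inv', hf'.map_inv', hg]

end Uniq

/-! ## The Heisenberg cocycle -/

section Construction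

variable (Γ : Subgroup SL(2, ℤ)) {R : Type*} [CommRing R]

/-- The value at `U = S * T` of the Heisenberg cocycle. -/
def heisU (m m' : SL(2, ℤ) ⧸ Γ → R) (x : SL(2, ℤ) ⧸ Γ) : Heis R :=
  ⟨m ((S * T) • x) - m x, m' ((S * T) • x) - m' x,
    m ((S * T) • x) * (m' ((S * T) • x) - m' x)⟩

variable {Γ}

lemma ST_cube_smul (hneg : (-1 : SL(2, ℤ)) ∈ Γ) (x : SL(2, ℤ) ⧸ Γ) :
    (S * T) • (S * T) • (S * T) • x = x := by
  rw [smul_smul, smul_smul, ST_cube_eq_neg_one, neg_one_smul_quot hneg]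

lemma S_smul_ST_smul (hneg : (-1 : SL(2, ℤ)) ∈ Γ) (x : SL(2, ℤ) ⧸ Γ) :
    S • (S * T) • x = T • x := by
  rw [smul_smul, ← mul_assoc, S_mul_S_eq_neg_one, mul_smul, neg_one_smul_quot hneg]

lemma heisU_cube (hneg : (-1 : SL(2, ℤ)) ∈ Γ) (m m' : SL(2, ℤ) ⧸ Γ → R) (x : SL(2, ℤ) ⧸ Γ) :
    heisU Γ m m' ((S * T) • (S * T) • x) * heisU Γ m m' ((S * T) • x) * heisU Γ m m' x = 1 := by
  have h3 := ST_cube_smul hneg x
  ext
  · simp only [heisU, Heis.mul_a, Heis.one_a, h3]; ring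
  · simp only [heisU, Heis.mul_b, Heis.one_b, h3]; ring
  · simp only [heisU, Heis.mul_a, Heis.mul_c, Heis.one_c, h3]; ring

/-- Existence of the Heisenberg cocycle. -/
lemma exists_heis_cocycle (hneg : (-1 : SL(2, ℤ)) ∈ Γ) (m m' : SL(2, ℤ) ⧸ Γ → R) :
    ∃ C : SL(2, ℤ) → SL(2, ℤ) ⧸ Γ → Heis R, IsTwCocycle C ∧ (∀ x, C S x = 1) ∧
      ∀ x, C (S * T) x = heisU Γ m m' x := by
  obtain ⟨C, hC, hS, hU⟩ := exists_twisted_cocycle (X := SL(2, ℤ) ⧸ Γ) (H := Heis R)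
    (neg_one_smul_quot hneg) (fun _ => 1) (heisU Γ m m') (fun _ => by simp)
    (heisU_cube hneg m m')
  exact ⟨C, hC, fun x => by rw [hS], fun x => by rw [hU]⟩

end Construction

/-! ## Properties of a Heisenberg cocycle -/

section Props

variable {Γ : Subgroup SL(2, ℤ)} {R : Type*} [CommRing R]
  {C : SL(2, ℤ) → SL(2, ℤ) ⧸ Γ → Heis R}

lemma IsTwCocycle.isCocycle_a (hC : IsTwCocycle C) : IsCocycle (fun g x => (C g x).a) := by
  intro g h x
  show (C (g * h) x).a = (C h x).a + (C g (h • x)).a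
  rw [hC, Heis.mul_a, add_comm]

lemma IsTwCocycle.isCocycle_b (hC : IsTwCocycle C) : IsCocycle (fun g x => (C g x).b) := by
  intro g h x
  show (C (g * h) x).b = (C h x).b + (C g (h • x)).b
  rw [hC, Heis.mul_b, add_comm]

lemma tw_S_inv (hC : IsTwCocycle C) (hS : ∀ x, C S x = 1) (x : SL(2, ℤ) ⧸ Γ) : C S⁻¹ x = 1 := by
  have h := hC.map_inv_mul S (S⁻¹ • x)
  rwa [hS, mul_one, smul_inv_smul] at h

lemma tw_T (hC : IsTwCocycle C) (hS : ∀ x, C S x = 1) (x : SL(2, ℤ) ⧸ Γ) :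
    C T x = C (S * T) x := by
  have h : (T : SL(2, ℤ)) = S⁻¹ * (S * T) := by rw [inv_mul_cancel_left]
  conv_lhs => rw [h]
  rw [hC, tw_S_inv hC hS, one_mul]

lemma tw_neg_one (hC : IsTwCocycle C) (hS : ∀ x, C S x = 1) (x : SL(2, ℤ) ⧸ Γ) :
    C (-1) x = 1 := by
  rw [← S_mul_S_eq_neg_one, hC, hS, hS, one_mul]

/-- The Heisenberg cocycle along a `T`-orbit. -/
lemma tw_T_pow (hC : IsTwCocycle C) (hS : ∀ x, C S x = 1) (m m' e e' : SL(2, ℤ) ⧸ Γ → R)
    (hU : ∀ x, C (S * T) x = heisU Γ m m' x) (he : IsParData Γ m e) (he' : IsParData Γ m' e')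
    (y : SL(2, ℤ) ⧸ Γ) (k : ℕ) :
    (C (T ^ k) y).a = e (T ^ k • y) - e y ∧ (C (T ^ k) y).b = e' (T ^ k • y) - e' y ∧
      (C (T ^ k) y).c = ∑ j ∈ Finset.range k,
          (m ((S * T) • T ^ j • y) * (m' ((S * T) • T ^ j • y) - m' (T ^ j • y))
            + (m ((S * T) • T ^ j • y) - m (T ^ j • y)) * e' (T ^ j • y))
        - e' y * (e (T ^ k • y) - e y) := by
  induction k with
  | zero => simp [hC.map_one]
  | succ k ih =>
    obtain ⟨iha, ihb, ihc⟩ := ih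
    have hT : C (T ^ (k + 1)) y = C T (T ^ k • y) * C (T ^ k) y := by
      rw [pow_succ', hC]
    have hTy : T ^ (k + 1) • y = T • T ^ k • y := by rw [pow_succ', mul_smul]
    have h1 := he (T ^ k • y)
    have h2 := he' (T ^ k • y)
    rw [hT, hTy, tw_T hC hS, hU]
    refine ⟨?_, ?_, ?_⟩
    · rw [Heis.mul_a, iha]
      simp only [heisU]
      linear_combination -h1
    · rw [Heis.mul_b, ihb]
      simp only [heisU]
      linear_combination -h2
    · rw [Heis.mul_c, ihc, ihb, Finset.sum_range_succ]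
      simp only [heisU]
      linear_combination e' y * h1

end Props

/-! ## Heisenberg algebra -/

section HeisAlg

variable {R : Type*} [CommRing R]

lemma Heis.conj_c {P' P Q : Heis R} (h : P' * P = 1) (ha : Q.a = 0) (hb : Q.b = 0) :
    (P' * Q * P).c = Q.c := by
  have h1 : P'.a + P.a = 0 := by simpa using congrArg Heis.a h
  have h3 : P'.c + P.c + P'.a * P.b = 0 := by simpa using congrArg Heis.c h
  simp only [Heis.mul_c, Heis.mul_a, ha, hb]
  linear_combination h3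

lemma Heis.conj_one {P' P Q : Heis R} (h : P' * P = 1) (hQ : Q = 1) : P' * Q * P = 1 := by
  rw [hQ, mul_one, h]

end HeisAlg

/-! ## Conjugates -/

section Conj

variable {Γ : Subgroup SL(2, ℤ)} {R : Type*} [CommRing R]
  {C : SL(2, ℤ) → SL(2, ℤ) ⧸ Γ → Heis R}

/-- `C (h⁻¹ * t * h) x₀ = C h⁻¹ (h x₀) * C t (h x₀) * C h x₀` when `t` fixes `h x₀`. -/
lemma tw_conj (hC : IsTwCocycle C) (h t : SL(2, ℤ))
    (hfix : t • h • basePt Γ = h • basePt Γ) :
    C (h⁻¹ * t * h) (basePt Γ) =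
      C h⁻¹ (h • basePt Γ) * C t (h • basePt Γ) * C h (basePt Γ) := by
  rw [hC, hC, hfix]

lemma fix_of_conj_mem (h t : SL(2, ℤ)) (hmem : h⁻¹ * t * h ∈ Γ) :
    t • h • basePt Γ = h • basePt Γ := by
  have h1 := smul_basePt_of_mem Γ hmem
  rw [mul_smul, mul_smul] at h1
  have h2 := congrArg (fun z => h • z) h1
  simpa using h2

end Conj

/-! ## Summation over a `T`-orbit system -/

section OrbitSum

variable {Γ : Subgroup SL(2, ℤ)}

lemma sum_orbit_system {ι : Type} [Fintype ι] [Fintype (SL(2, ℤ) ⧸ Γ)] {A : Type*}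
    [AddCommMonoid A] (h : ι → SL(2, ℤ)) (w : ι → ℕ)
    (hbij : ∀ x : SL(2, ℤ) ⧸ Γ, ∃! p : (Σ i, Fin (w i)),
      x = ((T ^ (p.2 : ℕ) * h p.1 : SL(2, ℤ)) : SL(2, ℤ) ⧸ Γ))
    (G : SL(2, ℤ) ⧸ Γ → A) :
    ∑ i, ∑ j ∈ Finset.range (w i), G (T ^ j • h i • basePt Γ) = ∑ x, G x := by
  let F : (Σ i, Fin (w i)) → SL(2, ℤ) ⧸ Γ :=
    fun p => ((T ^ (p.2 : ℕ) * h p.1 : SL(2, ℤ)) : SL(2, ℤ) ⧸ Γ)
  have hF : Function.Bijective F := by
    constructor
    · intro p q hpq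
      obtain ⟨r, -, hr⟩ := hbij (F p)
      rw [hr p rfl, hr q hpq]
    · intro x
      obtain ⟨p, hp, -⟩ := hbij x
      exact ⟨p, hp.symm⟩
  rw [← hF.sum_comp G, Fintype.sum_sigma]
  refine Finset.sum_congr rfl fun i _ => ?_
  rw [← Fin.sum_univ_eq_sum_range (fun j => G (T ^ j • h i • basePt Γ)) (w i)]
  refine Finset.sum_congr rfl fun j _ => ?_
  show G (T ^ (j : ℕ) • h i • basePt Γ) = G ((T ^ (j : ℕ) * h i : SL(2, ℤ)) : SL(2, ℤ) ⧸ Γ)
  rw [← mul_smul, smul_basePt_eq]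

end OrbitSum

/-! ## The final identity -/

section Final

variable {Γ : Subgroup SL(2, ℤ)} {R : Type*} [CommRing R]

lemma sum_G_eq [Fintype (SL(2, ℤ) ⧸ Γ)] (hneg : (-1 : SL(2, ℤ)) ∈ Γ)
    (m m' e' : SL(2, ℤ) ⧸ Γ → R) (he' : IsParData Γ m' e') :
    ∑ x : SL(2, ℤ) ⧸ Γ, (m ((S * T) • x) * (m' ((S * T) • x) - m' x)
        + (m ((S * T) • x) - m x) * e' x)
      = - ∑ x : SL(2, ℤ) ⧸ Γ, m x * (e' x - e' (S • x)) := by
  have h1 : ∀ x : SL(2, ℤ) ⧸ Γ, m ((S * T) • x) * (m' ((S * T) • x) - m' x)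
      + (m ((S * T) • x) - m x) * e' x
      = m ((S * T) • x) * e' (S • (S * T) • x) - m x * e' x := by
    intro x
    rw [S_smul_ST_smul hneg]
    linear_combination -(m ((S * T) • x)) * he' x
  have h2 : ∑ x : SL(2, ℤ) ⧸ Γ, m ((S * T) • x) * e' (S • (S * T) • x)
      = ∑ x : SL(2, ℤ) ⧸ Γ, m x * e' (S • x) :=
    Equiv.sum_comp (MulAction.toPerm (S * T : SL(2, ℤ))) (fun y => m y * e' (S • y))
  rw [Finset.sum_congr rfl fun x _ => h1 x, Finset.sum_sub_distrib, h2, ← Finset.sum_neg_distrib,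
    ← Finset.sum_sub_distrib]
  refine Finset.sum_congr rfl fun x _ => ?_
  ring

end Final

/-! ## Torsion -/

section Torsion

variable {Γ : Subgroup SL(2, ℤ)} {R : Type*} [CommRing R]
  {C : SL(2, ℤ) → SL(2, ℤ) ⧸ Γ → Heis R}

lemma heisU_eq_one_of_fix (m m' : SL(2, ℤ) ⧸ Γ → R) (y : SL(2, ℤ) ⧸ Γ)
    (hy : (S * T) • y = y) : heisU Γ m m' y = 1 := by
  ext <;> simp [heisU, hy]

lemma tw_neg (hC : IsTwCocycle C) (hS : ∀ x, C S x = 1) (g : SL(2, ℤ)) (x : SL(2, ℤ) ⧸ Γ) :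
    C (-g) x = C g x := by
  rw [← neg_one_mul, hC, tw_neg_one hC hS, one_mul]

lemma neg_smul_quot (hneg : (-1 : SL(2, ℤ)) ∈ Γ) (g : SL(2, ℤ)) (x : SL(2, ℤ) ⧸ Γ) :
    (-g) • x = g • x := by
  rw [← neg_one_mul, mul_smul, neg_one_smul_quot hneg]

lemma ST_fix_of_sq_fix (hneg : (-1 : SL(2, ℤ)) ∈ Γ) (y : SL(2, ℤ) ⧸ Γ)
    (hy : (S * T) ^ 2 • y = y) : (S * T) • y = y := by
  have h3 := ST_cube_smul hneg y
  rw [pow_two, mul_smul] at hy
  rw [hy] at h3
  exact h3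

/-- The value of the Heisenberg cocycle at a torsion element fixing the point is trivial. -/
lemma tw_torsion_class (hneg : (-1 : SL(2, ℤ)) ∈ Γ) (hC : IsTwCocycle C) (hS : ∀ x, C S x = 1)
    (m m' : SL(2, ℤ) ⧸ Γ → R) (hU : ∀ x, C (S * T) x = heisU Γ m m' x)
    (ε : SL(2, ℤ)) (y : SL(2, ℤ) ⧸ Γ) (hy : ε • y = y)
    (hε : ε = 1 ∨ ε = -1 ∨ ε = S ∨ ε = -S ∨ ε = S * T ∨ ε = -(S * T) ∨ ε = (S * T) ^ 2 ∨
      ε = -(S * T) ^ 2) : C ε y = 1 := by
  have hUU : ∀ z : SL(2, ℤ) ⧸ Γ, (S * T) • z = z → C ((S * T) ^ 2) z = 1 := by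
    intro z hz
    rw [pow_two, hC, hz, hU, heisU_eq_one_of_fix m m' z hz, one_mul]
  rcases hε with rfl | rfl | rfl | rfl | rfl | rfl | rfl | rfl
  · exact hC.map_one y
  · exact tw_neg_one hC hS y
  · exact hS y
  · rw [tw_neg hC hS, hS]
  · rw [hU, heisU_eq_one_of_fix m m' y hy]
  · rw [neg_smul_quot hneg] at hy
    rw [tw_neg hC hS, hU, heisU_eq_one_of_fix m m' y hy]
  · exact hUU y (ST_fix_of_sq_fix hneg y hy)
  · rw [neg_smul_quot hneg] at hy
    rw [tw_neg hC hS]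
    exact hUU y (ST_fix_of_sq_fix hneg y hy)

end Torsion

/-! ## The theorem -/

universe u

/-- **Leaf HEIS** (`Spec.HeisLiftStatement`), from leaf TORS. -/
theorem heisLift_of (tors : TorsionClassStatement) : HeisLiftStatement.{u} := by
  intro Γ _ hneg R _ φ ψ m m' e e' hφ hψ he he'
  classical
  have : Fintype (SL(2, ℤ) ⧸ Γ) := Fintype.ofFinite _
  obtain ⟨f, ⟨hfc, hfS, hfU⟩, hfφ⟩ := hφ
  obtain ⟨f', ⟨hfc', hfS', hfU'⟩, hfψ⟩ := hψ
  obtain ⟨C, hC, hCS, hCU⟩ := exists_heis_cocycle (R := R) hneg m m'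
  have ha : ∀ g x, (C g x).a = f g x := by
    refine cocycle_eq_of_S_ST hC.isCocycle_a hfc ?_ ?_
    · funext x
      show (C S x).a = f S x
      rw [hCS, hfS, Heis.one_a]
    · funext x
      show (C (S * T) x).a = f (S * T) x
      rw [hCU, hfU]
      rfl
  have hb : ∀ g x, (C g x).b = f' g x := by
    refine cocycle_eq_of_S_ST hC.isCocycle_b hfc' ?_ ?_
    · funext x
      show (C S x).b = f' S x
      rw [hCS, hfS', Heis.one_b]
    · funext x
      show (C (S * T) x).b = f' (S * T) x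
      rw [hCU, hfU']
      rfl
  refine ⟨fun γ => (C (γ : SL(2, ℤ)) (basePt Γ)).c, ⟨?_, ?_⟩, ?_⟩
  · -- the Heisenberg relation
    intro γ γ'
    show (C ((γ * γ' : Γ) : SL(2, ℤ)) (basePt Γ)).c = _
    rw [Subgroup.coe_mul, hC, smul_basePt_of_mem Γ γ'.2, Heis.mul_c, ha, hb, hfφ, hfψ]
    rfl
  · -- torsion
    intro γ hγ
    have hγ' : IsOfFinOrder (γ : SL(2, ℤ)) := Γ.subtype.isOfFinOrder hγ
    obtain ⟨h, hh⟩ := tors (γ : SL(2, ℤ)) hγ'
    set ε : SL(2, ℤ) := h * γ * h⁻¹ with hε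
    have hγε : (γ : SL(2, ℤ)) = (h⁻¹)⁻¹⁻¹ * ε * h⁻¹⁻¹ := by
      rw [hε]; group
    have hmem : (h⁻¹)⁻¹⁻¹ * ε * h⁻¹⁻¹ ∈ Γ := by
      rw [← hγε]; exact γ.2
    have hfix := fix_of_conj_mem (Γ := Γ) (h⁻¹⁻¹) ε hmem
    have h1 : C ε (h⁻¹⁻¹ • basePt Γ) = 1 :=
      tw_torsion_class hneg hC hCS m m' hCU ε _ hfix hh
    show (C (γ : SL(2, ℤ)) (basePt Γ)).c = 0
    rw [hγε, tw_conj hC _ _ hfix, Heis.conj_one (hC.map_inv_mul _ _) h1, Heis.one_c]
  · -- the β-formula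
    intro ι _ γ h w hsys
    obtain ⟨hw, hγ, hbij⟩ := hsys
    rw [maninForm_eq_sum, ← sum_G_eq hneg m m' e' he', ← sum_orbit_system h w hbij]
    refine Finset.sum_congr rfl fun i _ => ?_
    have hmem : (h i)⁻¹ * T ^ (w i) * h i ∈ Γ := by
      rw [← hγ i]; exact (γ i).2
    have hfix := fix_of_conj_mem (Γ := Γ) (h i) (T ^ (w i)) hmem
    obtain ⟨hTa, hTb, hTc⟩ := tw_T_pow hC hCS m m' e e' hCU he he' (h i • basePt Γ) (w i)
    show (C ((γ i : Γ) : SL(2, ℤ)) (basePt Γ)).c = _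
    rw [hγ i, tw_conj hC _ _ hfix, Heis.conj_c (hC.map_inv_mul _ _)
      (by rw [hTa, hfix, sub_self]) (by rw [hTb, hfix, sub_self]), hTc, hfix, sub_self, mul_zero,
      sub_zero]

end Fermat.Agent.S41.H945
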